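import Fermat.Agent.LT.T6.H189.ArchIntCut

/-!
# Row LT, tower T6, leaf T6.23.05 `H189.U2CompactC` (helper965) — OFF-MAIN

`u2CompactC965 : H189.U2CompactC`, i.e. `CompactSpace U2sub`.

The set of the unitary matrices is closed and bounded in `M₂(ℂ)`, hence compact; the inverse of
a unitary matrix is its conjugate transpose, so `A ↦ (A, A*)` is a continuous map from this
compact set onto `U(2) ⊂ GL₂(ℂ)` (units topology).
-/

set_option autoImplicit false

open MeasureTheory
open scoped Matrix ENNReal

noncomputable section

namespace Fermat.Agent.LT.T6.H965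

open Fermat.Agent.LT.T6.H189

/-- The unitary matrices in `M₂(ℂ)`. -/
def uMat965 : Set (Matrix (Fin 2) (Fin 2) ℂ) := {A | A * A.conjTranspose = 1}

theorem isClosed_uMat965 : IsClosed uMat965 := by
  have hc : Continuous (fun A : Matrix (Fin 2) (Fin 2) ℂ => A * A.conjTranspose) :=
    continuous_id.matrix_mul continuous_id.matrix_conjTranspose
  exact isClosed_eq hc continuous_const

theorem uMat_subset965 :
    uMat965 ⊆ (Set.pi Set.univ fun _ : Fin 2 =>
      Set.pi Set.univ fun _ : Fin 2 => Metric.closedBall (0 : ℂ) 1) := by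
  intro A hA i _ j _
  rw [mem_closedBall_zero_iff]
  exact entry_norm_bound_of_unitary (Matrix.mem_unitaryGroup_iff.2 hA) i j

theorem isCompact_uMat965 : IsCompact uMat965 :=
  IsCompact.of_isClosed_subset
    (isCompact_univ_pi fun _ => isCompact_univ_pi fun _ => isCompact_closedBall (0 : ℂ) 1)
    isClosed_uMat965 uMat_subset965

/-- A unitary matrix as an element of `GL₂(ℂ)`, with inverse the conjugate transpose. -/
def toGL965 (A : uMat965) : GL (Fin 2) ℂ :=
  ⟨A.1, A.1.conjTranspose, A.2, mul_eq_one_comm.1 A.2⟩

theorem continuous_toGL965 : Continuous toGL965 :=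
  Units.continuous_iff.2
    ⟨continuous_subtype_val, continuous_subtype_val.matrix_conjTranspose⟩

theorem range_toGL965 : Set.range toGL965 = U2 := by
  ext g
  constructor
  · rintro ⟨A, rfl⟩
    exact A.2
  · intro hg
    exact ⟨⟨(g : Matrix (Fin 2) (Fin 2) ℂ), hg⟩, Units.ext rfl⟩

theorem isCompact_U2965 : IsCompact U2 := by
  have hcs : CompactSpace uMat965 := isCompact_iff_compactSpace.1 isCompact_uMat965
  rw [← range_toGL965]
  exact isCompact_range continuous_toGL965

/-- **L3** (`H189.U2CompactC`): `U(2)` is compact. -/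
theorem u2CompactC965 : U2CompactC :=
  isCompact_iff_compactSpace.1 isCompact_U2965

end Fermat.Agent.LT.T6.H965

end
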