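import Fermat.Agent.LT.T6.H783.BadSpec

/-!
# Row LT, tower T6, leaf T6.18a `H783.CoverC783` (helper965) — OFF-MAIN

`coverC965 : H783.CoverC783`: in a local field `k` (complete, normalised discrete valuation,
finite residue system) the bounded region `|t| ≤ exp B`, `exp(-B) ≤ |d| ≤ exp B` of `k × k` is
covered by finitely many balls `B(p, exp(-N p))`, `p` in the region, for every radius function.

* finite nets of the closed balls (residue system + uniformiser, induction);
* the closed balls are totally bounded, closed in a complete space, hence compact;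
* the balls `B(p, exp(-N p))` are neighbourhoods of their centres; finite subcover.

Mathlib + `T6/Spec.lean` + `T6/H783/BadSpec.lean` only.
-/

set_option autoImplicit false

open scoped Matrix

noncomputable section

namespace Fermat.Agent.LT.T6.H965

open Fermat.Agent.LT.T6

variable {k : Type} [Field k] [Valued k Γ₀]

/-! ## Values of the valuation -/

theorem le_exp_neg_one_of_lt_one965 {y : Γ₀} (hy : y < 1) : y ≤ WithZero.exp (-1 : ℤ) := by
  rcases eq_or_ne y 0 with rfl | h0
  · exact zero_le'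
  · rw [← WithZero.exp_log h0] at hy ⊢
    rw [← WithZero.exp_zero, WithZero.exp_lt_exp] at hy
    rw [WithZero.exp_le_exp]
    omega

/-- The powers of a uniformiser take every value `exp m`. -/
theorem val_zpow_unif965 {ϖ : k} (hϖ : Valued.v ϖ = WithZero.exp (-1 : ℤ)) (m : ℤ) :
    Valued.v (ϖ ^ (-m)) = WithZero.exp m := by
  rw [map_zpow₀, hϖ, ← WithZero.exp_zsmul, smul_eq_mul, neg_mul_neg, mul_one]

theorem exists_val_eq_exp965 {q : ℕ} (h : IsLocalField k q) (m : ℤ) :
    ∃ c : k, Valued.v c = WithZero.exp m := by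
  obtain ⟨ϖ, hϖ⟩ := h.unif
  exact ⟨ϖ ^ (-m), val_zpow_unif965 hϖ m⟩

/-! ## Finite nets -/

/-- A finite `exp(-n)`-net of the unit ball. -/
theorem net_unit965 {q : ℕ} (h : IsLocalField k q) (n : ℕ) :
    ∃ S : Finset k, ∀ z : k, Valued.v z ≤ 1 →
      ∃ s ∈ S, Valued.v (z - s) ≤ WithZero.exp (-(n : ℤ)) := by
  classical
  obtain ⟨ϖ, hϖ⟩ := h.unif
  obtain ⟨T, -, -, -, hT⟩ := h.residue
  have hϖ0 : ϖ ≠ 0 := by
    intro h0
    rw [h0, map_zero] at hϖ
    exact WithZero.exp_ne_zero hϖ.symm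
  induction n with
  | zero =>
    refine ⟨{0}, fun z hz => ⟨0, Finset.mem_singleton_self 0, ?_⟩⟩
    rw [sub_zero]
    simpa using hz
  | succ n ih =>
    obtain ⟨S, hS⟩ := ih
    refine ⟨(T ×ˢ S).image (fun p => p.1 + ϖ * p.2), fun z hz => ?_⟩
    obtain ⟨x, hxT, hx⟩ := hT z hz
    have hx' : Valued.v (z - x) ≤ WithZero.exp (-1 : ℤ) := le_exp_neg_one_of_lt_one965 hx
    have hz₁ : Valued.v (ϖ⁻¹ * (z - x)) ≤ 1 := by
      rw [map_mul, map_inv₀, hϖ]
      calc (WithZero.exp (-1 : ℤ))⁻¹ * Valued.v (z - x)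
          ≤ (WithZero.exp (-1 : ℤ))⁻¹ * WithZero.exp (-1 : ℤ) := mul_le_mul_right hx' _
        _ = 1 := inv_mul_cancel₀ WithZero.exp_ne_zero
    obtain ⟨s, hsS, hs⟩ := hS _ hz₁
    refine ⟨x + ϖ * s, Finset.mem_image.2 ⟨(x, s), Finset.mem_product.2 ⟨hxT, hsS⟩, rfl⟩, ?_⟩
    have e : z - (x + ϖ * s) = ϖ * (ϖ⁻¹ * (z - x) - s) := by
      field_simp
      ring
    rw [e, map_mul, hϖ]
    calc WithZero.exp (-1 : ℤ) * Valued.v (ϖ⁻¹ * (z - x) - s)
        ≤ WithZero.exp (-1 : ℤ) * WithZero.exp (-(n : ℤ)) := mul_le_mul_right hs _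
      _ = WithZero.exp (-((n + 1 : ℕ) : ℤ)) := by
          rw [← WithZero.exp_add]
          congr 1
          push_cast
          ring

/-- A finite `exp(-M)`-net of the ball of radius `exp B`. -/
theorem net_ball965 {q : ℕ} (h : IsLocalField k q) (B M : ℤ) :
    ∃ S : Finset k, ∀ z : k, Valued.v z ≤ WithZero.exp B →
      ∃ s ∈ S, Valued.v (z - s) ≤ WithZero.exp (-M) := by
  classical
  obtain ⟨c, hc⟩ := exists_val_eq_exp965 h B
  have hc0 : c ≠ 0 := by
    intro h0
    rw [h0, map_zero] at hc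
    exact WithZero.exp_ne_zero hc.symm
  obtain ⟨S, hS⟩ := net_unit965 h (M + B).toNat
  refine ⟨S.image (fun s => c * s), fun z hz => ?_⟩
  have hz' : Valued.v (c⁻¹ * z) ≤ 1 := by
    rw [map_mul, map_inv₀, hc]
    calc (WithZero.exp B)⁻¹ * Valued.v z
        ≤ (WithZero.exp B)⁻¹ * WithZero.exp B := mul_le_mul_right hz _
      _ = 1 := inv_mul_cancel₀ WithZero.exp_ne_zero
  obtain ⟨s, hsS, hs⟩ := hS _ hz'
  refine ⟨c * s, Finset.mem_image.2 ⟨s, hsS, rfl⟩, ?_⟩
  have e : z - c * s = c * (c⁻¹ * z - s) := by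
    field_simp
  rw [e, map_mul, hc]
  calc WithZero.exp B * Valued.v (c⁻¹ * z - s)
      ≤ WithZero.exp B * WithZero.exp (-(((M + B).toNat : ℕ) : ℤ)) := mul_le_mul_right hs _
    _ = WithZero.exp (B - ((M + B).toNat : ℤ)) := by
        rw [← WithZero.exp_add]
        congr 1
    _ ≤ WithZero.exp (-M) := by
        rw [WithZero.exp_le_exp]
        omega

/-! ## Topology -/

/-- The closed balls around `0` are closed. -/
theorem isClosed_ball965 {q : ℕ} (h : IsLocalField k q) (B : ℤ) :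
    IsClosed {x : k | Valued.v x ≤ WithZero.exp B} := by
  obtain ⟨c, hc⟩ := exists_val_eq_exp965 h B
  have := Valued.isClosed_closedBall k ((Valued.v : Valuation k Γ₀).restrict c)
  simp only [Valuation.restrict_le_iff, hc] at this
  exact this

/-- The open balls around `0` are open. -/
theorem isOpen_ball965 {q : ℕ} (h : IsLocalField k q) (B : ℤ) :
    IsOpen {x : k | Valued.v x < WithZero.exp B} := by
  obtain ⟨c, hc⟩ := exists_val_eq_exp965 h B
  have := Valued.isOpen_ball k ((Valued.v : Valuation k Γ₀).restrict c)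
  simp only [Valuation.restrict_lt_iff, hc] at this
  exact this

/-- The closed balls are neighbourhoods of their centres. -/
theorem closedBall_mem_nhds965 {q : ℕ} (h : IsLocalField k q) (p : k) (N : ℤ) :
    {x : k | Valued.v (x - p) ≤ WithZero.exp (-N)} ∈ nhds p := by
  obtain ⟨c, hc⟩ := exists_val_eq_exp965 h (-N)
  have hc0 : (Valued.v : Valuation k Γ₀).restrict c ≠ 0 := by
    rw [Ne, Valuation.restrict_eq_zero_iff, hc]
    exact WithZero.exp_ne_zero
  rw [Valued.mem_nhds]
  refine ⟨Units.mk0 _ hc0, fun y hy => ?_⟩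
  have hy' : (Valued.v : Valuation k Γ₀).restrict (y - p)
      < (Valued.v : Valuation k Γ₀).restrict c := hy
  rw [Valuation.restrict_lt_iff, hc] at hy'
  exact hy'.le

/-- The closed balls around `0` are totally bounded. -/
theorem totallyBounded_ball965 {q : ℕ} (h : IsLocalField k q) (B : ℤ) :
    TotallyBounded {x : k | Valued.v x ≤ WithZero.exp B} := by
  rw [(Valued.hasBasis_uniformity k Γ₀).totallyBounded_iff]
  intro γ _
  have hγ0 : MonoidWithZeroHom.ValueGroup₀.embedding γ.1 ≠ 0 := by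
    intro h0
    have h1 := (MonoidWithZeroHom.ValueGroup₀.embedding_strictMono
      (f := MonoidWithZeroHom.ofClass (Valued.v : Valuation k Γ₀))).injective
      (h0.trans (map_zero _).symm)
    exact γ.ne_zero h1
  obtain ⟨S, hS⟩ := net_ball965 h B
    (1 - WithZero.log (MonoidWithZeroHom.ValueGroup₀.embedding γ.1))
  refine ⟨(S : Set k), S.finite_toSet, fun z hz => ?_⟩
  obtain ⟨s, hsS, hs⟩ := hS z hz
  refine Set.mem_iUnion₂.2 ⟨s, hsS, ?_⟩
  show (Valued.v : Valuation k Γ₀).restrict (s - z) < γ.1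
  rw [Valuation.restrict_lt_iff_lt_embedding, Valuation.map_sub_swap]
  refine lt_of_le_of_lt hs ?_
  conv_rhs => rw [← WithZero.exp_log hγ0]
  rw [WithZero.exp_lt_exp]
  omega

/-- The closed balls around `0` are compact. -/
theorem isCompact_ball965 {q : ℕ} (h : IsLocalField k q) (B : ℤ) :
    IsCompact {x : k | Valued.v x ≤ WithZero.exp B} := by
  have hcomp : CompleteSpace k := h.complete
  rw [isCompact_iff_totallyBounded_isComplete]
  exact ⟨totallyBounded_ball965 h B, (isClosed_ball965 h B).isComplete⟩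

/-- The region is compact. -/
theorem isCompact_region965 {q : ℕ} (h : IsLocalField k q) (B : ℤ) :
    IsCompact {p : k × k | Valued.v p.1 ≤ WithZero.exp B ∧
      WithZero.exp (-B) ≤ Valued.v p.2 ∧ Valued.v p.2 ≤ WithZero.exp B} := by
  have hcl : IsClosed {x : k | WithZero.exp (-B) ≤ Valued.v x} := by
    have : {x : k | WithZero.exp (-B) ≤ Valued.v x}
        = {x : k | Valued.v x < WithZero.exp (-B)}ᶜ := by
      ext x
      simp only [Set.mem_setOf_eq, Set.mem_compl_iff, not_lt]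
    rw [this]
    exact (isOpen_ball965 h (-B)).isClosed_compl
  have h2 : IsCompact ({x : k | WithZero.exp (-B) ≤ Valued.v x}
      ∩ {x : k | Valued.v x ≤ WithZero.exp B}) := (isCompact_ball965 h B).inter_left hcl
  have h3 := (isCompact_ball965 h B).prod h2
  have e : {p : k × k | Valued.v p.1 ≤ WithZero.exp B ∧
      WithZero.exp (-B) ≤ Valued.v p.2 ∧ Valued.v p.2 ≤ WithZero.exp B}
      = {x : k | Valued.v x ≤ WithZero.exp B}
        ×ˢ ({x : k | WithZero.exp (-B) ≤ Valued.v x} ∩ {x : k | Valued.v x ≤ WithZero.exp B}) := by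
    ext p
    exact Iff.rfl
  rw [e]
  exact h3

/-! ## The leaf -/

/-- **T6.18a (compactness)** (`H783.CoverC783`). -/
theorem coverC965 : H783.CoverC783 := by
  intro k _ _ q h B N
  classical
  set R : Set (k × k) := {p : k × k | Valued.v p.1 ≤ WithZero.exp B ∧
      WithZero.exp (-B) ≤ Valued.v p.2 ∧ Valued.v p.2 ≤ WithZero.exp B} with hR
  have hRc : IsCompact R := isCompact_region965 h B
  set U : k × k → Set (k × k) := fun p =>
    {x : k | Valued.v (x - p.1) ≤ WithZero.exp (-(N p.1 p.2))}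
      ×ˢ {x : k | Valued.v (x - p.2) ≤ WithZero.exp (-(N p.1 p.2))} with hU
  have hUn : ∀ p ∈ R, U p ∈ nhds p := fun p _ =>
    prod_mem_nhds (closedBall_mem_nhds965 h p.1 _) (closedBall_mem_nhds965 h p.2 _)
  obtain ⟨J, hJR, hJ⟩ := hRc.elim_nhds_subcover U hUn
  refine ⟨J, fun p hp => (hJR p hp).2.1, fun t d ht hd hd' => ?_⟩
  have hmem : (t, d) ∈ R := ⟨ht, hd, hd'⟩
  obtain ⟨p, hpJ, hp⟩ := Set.mem_iUnion₂.1 (hJ hmem)
  exact ⟨p, hpJ, hp.1, hp.2⟩

end Fermat.Agent.LT.T6.H965

end
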